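/-
Programme MAZ (S15), brick U6 TORS-CMP, part (T1) CURVE-Ω (helper94) — ABSTRACT CORE.

`K` a field, `c : TwoChart K R0 R1 R01` a two-chart ring over `K` (in the application
`K = Ω = ℚ̄_p`, `c = c0.baseChange Ω`, `R_j = Ω ⊗[W] B_j`), with `R0`, `R1`, `R01` DOMAINS, and `F` a
field with `[Algebra R01 F] [IsFractionRing R01 F]` (e.g. `F = FractionRing R01`, for which all the
algebra structures and scalar towers below are Mathlib instances).  Put `tF := algebraMap R0 F c.t`.

* `injective0/1`            : `R_j → R01` is injective;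
* `isFractionRing0/1`       : `F = Frac R0 = Frac R1`;
* `algebraMap_s_eq_inv`     : the image of `c.s` in `F` is `tF⁻¹`;
* `transcendental_of_not_isField` : `tF` is transcendental over `K` if `R0` is integral over `K[t]`
  and not a field;
* `isGen`                   : `X0.FF.IsGen K tF` (`tF` transcendental, `F` finite over `K(tF)`) if `R0`
  is of finite type and integral over `K[t]`;
* `isCurveOver`, `essFiniteType` : `AlgebraicCurve.IsCurveOver K F`, `Algebra.EssFiniteType K F`
  (`K` algebraically closed of characteristic `0`);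
* `hle0`, `hle1`, `ht1`     : the three inputs of `GenusRed53.Dedekind.chartHyp_of_dedekind`:
  `tF ∈ O_v → R0 ⊆ O_v`, `tF⁻¹ ∈ O_v → R1 ⊆ O_v`, `tF⁻¹ ∈ R1`;
* `covering`                : every place of `F / K` contains `R0` or `R1`;
* `chartHyp`                : `GenusRed53.CechAbs.ChartHyp K tF` (Dedekind charts);
* PLACE DICTIONARY (Dedekind charts): `placeEquiv0 : {v // tF ∈ O_v} ≃ HeightOneSpectrum R0`,
  `placeEquiv1 : {v // tF⁻¹ ∈ O_v} ≃ HeightOneSpectrum R1`
  (`v ↦ centreSpec v`, inverse `Place.ofHeightOneSpectrum`), `exists_eq_ofHeightOneSpectrum`.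
-/
import Mathlib
import Fermat.Agent.Jac.Core
import Fermat.Agent.MW.Bridge53.CurveOfGen
import Fermat.Agent.T1B.GenusRed53.Dedekind

set_option autoImplicit false
set_option linter.unusedSectionVars false
set_option linter.style.haveILetI false

open AlgebraicCurve IntermediateField IsDedekindDomain

namespace Fermat.Agent.MAZ.TorsCmp94

open Fermat.Agent.Jac Fermat.Agent.X0.FF Fermat.Agent.X0.FFDedekind
open Fermat.Agent.T1B.GenusRed53.CechAbs Fermat.Agent.T1B.GenusRed53.Dedekind

universe u v

variable {K R0 R1 R01 : Type u} [Field K] [CommRing R0] [CommRing R1] [CommRing R01]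
  [Algebra K R0] [Algebra K R1] [Algebra K R01] [Algebra R0 R01] [Algebra R1 R01]
  [IsScalarTower K R0 R01] [IsScalarTower K R1 R01] (c : TwoChart K R0 R1 R01)

/-! ### The rings -/

section Rings

theorem t_ne_zero [Nontrivial R01] : c.t ≠ 0 := by
  intro h
  haveI : IsLocalization.Away c.t R01 := c.away0
  have hu : IsUnit (algebraMap R0 R01 c.t) := IsLocalization.Away.algebraMap_isUnit c.t
  rw [h, map_zero] at hu
  exact not_isUnit_zero hu

theorem s_ne_zero [Nontrivial R01] : c.s ≠ 0 := by
  intro h
  haveI : IsLocalization.Away c.s R01 := c.away1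
  have hu : IsUnit (algebraMap R1 R01 c.s) := IsLocalization.Away.algebraMap_isUnit c.s
  rw [h, map_zero] at hu
  exact not_isUnit_zero hu

include c in
/-- `R0 → R01 = R0[1/t]` is injective. -/
theorem injective0 [IsDomain R0] [Nontrivial R01] : Function.Injective (algebraMap R0 R01) := by
  haveI : IsLocalization (Submonoid.powers c.t) R01 := c.away0
  exact IsLocalization.injective R01
    (powers_le_nonZeroDivisors_of_noZeroDivisors (t_ne_zero c))

include c in
/-- `R1 → R01 = R1[1/s]` is injective. -/
theorem injective1 [IsDomain R1] [Nontrivial R01] : Function.Injective (algebraMap R1 R01) := by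
  haveI : IsLocalization (Submonoid.powers c.s) R01 := c.away1
  exact IsLocalization.injective R01
    (powers_le_nonZeroDivisors_of_noZeroDivisors (s_ne_zero c))

/-- `Frac (R[1/t]) = Frac R`. -/
theorem isFractionRing_of_away' {R S F : Type*} [CommRing R] [CommRing S] [Field F] [Algebra R S]
    [Algebra R F] [Algebra S F] [IsScalarTower R S F] [IsDomain R] [IsDomain S] (t : R)
    (hloc : IsLocalization.Away t S) [IsFractionRing S F]
    (hinj : Function.Injective (algebraMap R S)) : IsFractionRing R F := by
  haveI : IsLocalization (Submonoid.powers t) S := hloc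
  have h := IsLocalization.localization_localization_isLocalization_of_has_all_units
    (Submonoid.powers t) (nonZeroDivisors S) F (fun x hx => hx.mem_nonZeroDivisors)
  have e : (nonZeroDivisors S).comap (algebraMap R S) = nonZeroDivisors R := by
    ext x
    rw [Submonoid.mem_comap, mem_nonZeroDivisors_iff_ne_zero, mem_nonZeroDivisors_iff_ne_zero,
      Ne, Ne, map_eq_zero_iff _ hinj]
  rw [e] at h
  exact h

end Rings

/-! ### The function field -/

variable {F : Type v} [Field F] [Algebra R01 F] [IsFractionRing R01 F]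
  [Algebra R0 F] [Algebra R1 F] [IsScalarTower R0 R01 F] [IsScalarTower R1 R01 F]

section Frac

include c in
/-- `F = Frac R0`. -/
theorem isFractionRing0 [IsDomain R0] [IsDomain R01] : IsFractionRing R0 F :=
  isFractionRing_of_away' c.t c.away0 (injective0 c)

include c in
/-- `F = Frac R1`. -/
theorem isFractionRing1 [IsDomain R1] [IsDomain R01] : IsFractionRing R1 F :=
  isFractionRing_of_away' c.s c.away1 (injective1 c)

/-- `tF * sF = 1` in `F`. -/
theorem algebraMap_t_mul_s : algebraMap R0 F c.t * algebraMap R1 F c.s = 1 := by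
  rw [IsScalarTower.algebraMap_apply R0 R01 F, IsScalarTower.algebraMap_apply R1 R01 F,
    ← map_mul, c.ts, map_one]

/-- The image of `s` is `tF⁻¹`. -/
theorem algebraMap_s_eq_inv : algebraMap R1 F c.s = (algebraMap R0 F c.t)⁻¹ :=
  eq_inv_of_mul_eq_one_right (algebraMap_t_mul_s c)

/-- The image of `t` is `sF⁻¹`. -/
theorem algebraMap_t_eq_inv : algebraMap R0 F c.t = (algebraMap R1 F c.s)⁻¹ :=
  eq_inv_of_mul_eq_one_left (algebraMap_t_mul_s c)

theorem algebraMap_t_ne_zero : algebraMap R0 F c.t ≠ 0 :=
  left_ne_zero_of_mul_eq_one (algebraMap_t_mul_s c)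

/-- **(ht1)** `tF⁻¹` is in the image of `R1`. -/
theorem ht1 : ∃ s : R1, algebraMap R1 F s = (algebraMap R0 F c.t)⁻¹ :=
  ⟨c.s, algebraMap_s_eq_inv c⟩

/-- `tF` is in the image of `R0` (trivial; for symmetry). -/
theorem ht0 : ∃ s : R0, algebraMap R0 F s = algebraMap R0 F c.t := ⟨c.t, rfl⟩

end Frac

/-! ### Scalar towers over `K` -/

section Towers

/-- `K → R → F` is a scalar tower if `K → R → R'` , `K → R' → F` and `R → R' → F` are (an instance
when `F = FractionRing R01`, `R' = R01`). -/
theorem tower_of_mid (K R R' F : Type*) [CommRing K] [CommRing R] [CommRing R'] [CommRing F]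
    [Algebra K R] [Algebra K R'] [Algebra R R'] [Algebra K F] [Algebra R F] [Algebra R' F]
    [IsScalarTower K R R'] [IsScalarTower K R' F] [IsScalarTower R R' F] : IsScalarTower K R F :=
  IsScalarTower.of_algebraMap_eq fun a => by
    rw [IsScalarTower.algebraMap_apply K R' F, IsScalarTower.algebraMap_apply K R R',
      ← IsScalarTower.algebraMap_apply R R' F]

end Towers

/-! ### Integrality over the line: places -/

section Places

variable [Algebra K F] [IsScalarTower K R0 F] [IsScalarTower K R1 F]

/-- If `y ∈ O_v` then the image of `K[y]` lies in `O_v`. -/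
theorem adjoin_le_place {R : Type*} [CommRing R] [Algebra K R] [Algebra R F] [IsScalarTower K R F]
    (y : R) (v : Place K F) (hv : algebraMap R F y ∈ v.toValuationSubring)
    (a : R) (ha : a ∈ Algebra.adjoin K {y}) : algebraMap R F a ∈ v.toValuationSubring := by
  induction ha using Algebra.adjoin_induction with
  | mem x hx =>
    rw [Set.mem_singleton_iff.1 hx]
    exact hv
  | algebraMap r =>
    rw [← IsScalarTower.algebraMap_apply K R F]
    exact v.algebraMap_mem' r
  | add x y _ _ hx hy =>
    rw [map_add]
    exact add_mem hx hy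
  | mul x y _ _ hx hy =>
    rw [map_mul]
    exact mul_mem hx hy

/-- A ring integral over `K[y]` lies in every `O_v` containing `y`. -/
theorem mem_place_of_isIntegral {R : Type*} [CommRing R] [Algebra K R] [Algebra R F]
    [IsScalarTower K R F] (y : R) (hint : ∀ x : R, IsIntegral (Algebra.adjoin K {y}) x)
    (v : Place K F) (hv : algebraMap R F y ∈ v.toValuationSubring) (b : R) :
    algebraMap R F b ∈ v.toValuationSubring := by
  refine mem_of_isIntegral_of_algebraMap_mem v (A := Algebra.adjoin K {y})
    (fun a => adjoin_le_place y v hv a.1 a.2) ?_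
  exact (hint b).map (IsScalarTower.toAlgHom (Algebra.adjoin K {y}) R F)

/-- **(hle0)** `tF ∈ O_v → R0 ⊆ O_v`. -/
theorem hle0 (hint0 : ∀ x : R0, IsIntegral (Algebra.adjoin K {c.t}) x) (v : Place K F)
    (hv : algebraMap R0 F c.t ∈ v.toValuationSubring) (b : R0) :
    algebraMap R0 F b ∈ v.toValuationSubring :=
  mem_place_of_isIntegral c.t hint0 v hv b

/-- **(hle1)** `tF⁻¹ ∈ O_v → R1 ⊆ O_v`. -/
theorem hle1 (hint1 : ∀ x : R1, IsIntegral (Algebra.adjoin K {c.s}) x) (v : Place K F)
    (hv : (algebraMap R0 F c.t)⁻¹ ∈ v.toValuationSubring) (b : R1) :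
    algebraMap R1 F b ∈ v.toValuationSubring := by
  rw [← algebraMap_s_eq_inv c] at hv
  exact mem_place_of_isIntegral c.s hint1 v hv b

/-- **Covering**: every place of `F / K` contains `R0` or `R1`. -/
theorem covering (hint0 : ∀ x : R0, IsIntegral (Algebra.adjoin K {c.t}) x)
    (hint1 : ∀ x : R1, IsIntegral (Algebra.adjoin K {c.s}) x) (v : Place K F) :
    (∀ b : R0, algebraMap R0 F b ∈ v.toValuationSubring) ∨
      (∀ b : R1, algebraMap R1 F b ∈ v.toValuationSubring) := by
  rcases v.toValuationSubring.mem_or_inv_mem (algebraMap R0 F c.t) with h | h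
  · exact Or.inl (hle0 c hint0 v h)
  · exact Or.inr (hle1 c hint1 v h)

end Places

/-! ### `tF` is a transcendental generator -/

section Gen

variable [Algebra K F] [IsScalarTower K R0 F]

/-- The image of `K[t]` lies in `K(tF)`. -/
theorem adjoin_le_adjoin_simple (a : R0) (ha : a ∈ Algebra.adjoin K {c.t}) :
    algebraMap R0 F a ∈ K⟮algebraMap R0 F c.t⟯ := by
  induction ha using Algebra.adjoin_induction with
  | mem x hx =>
    rw [Set.mem_singleton_iff.1 hx]
    exact mem_adjoin_simple_self K _
  | algebraMap r =>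
    rw [← IsScalarTower.algebraMap_apply K R0 F]
    exact IntermediateField.algebraMap_mem _ r
  | add x y _ _ hx hy =>
    rw [map_add]
    exact add_mem hx hy
  | mul x y _ _ hx hy =>
    rw [map_mul]
    exact mul_mem hx hy

/-- Elements of `R0` are integral over `K(tF)`. -/
theorem isIntegral_adjoin_simple (hint0 : ∀ x : R0, IsIntegral (Algebra.adjoin K {c.t}) x)
    (x : R0) : IsIntegral K⟮algebraMap R0 F c.t⟯ (algebraMap R0 F x) := by
  let φ : Algebra.adjoin K {c.t} →+* K⟮algebraMap R0 F c.t⟯ :=
    ((algebraMap R0 F).comp (algebraMap (Algebra.adjoin K {c.t}) R0)).codRestrict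
      K⟮algebraMap R0 F c.t⟯ (fun a => adjoin_le_adjoin_simple c a.1 a.2)
  exact IsIntegral.map_of_comp_eq φ (algebraMap R0 F) (RingHom.ext fun a => rfl) (hint0 x)

/-- If `R0` is integral over `K[t]` and is not a field, `tF` is transcendental over `K`. -/
theorem transcendental_of_not_isField [IsDomain R0] [IsDomain R01]
    (hint0 : ∀ x : R0, IsIntegral (Algebra.adjoin K {c.t}) x) (hnf : ¬ IsField R0) :
    Transcendental K (algebraMap R0 F c.t) := by
  intro halg
  apply hnf
  haveI := isFractionRing0 c (F := F)
  have hinj : Function.Injective (IsScalarTower.toAlgHom K R0 F) := IsFractionRing.injective R0 F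
  have ht : IsIntegral K c.t :=
    (isIntegral_algHom_iff (IsScalarTower.toAlgHom K R0 F) hinj).1 halg.isIntegral
  haveI : Algebra.IsIntegral K (Algebra.adjoin K {c.t}) :=
    Algebra.IsIntegral.adjoin (fun s hs => by rw [Set.mem_singleton_iff.1 hs]; exact ht)
  haveI : Algebra.IsIntegral K R0 := ⟨fun x => isIntegral_trans x (hint0 x)⟩
  exact isField_of_isIntegral_of_isField' (Field.toIsField K)

/-- **`tF` is a transcendental generator of `F / K`**: `F` is finite over `K(tF)`. -/
theorem isGen [IsDomain R0] [IsDomain R01] [Algebra.FiniteType K R0]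
    (hint0 : ∀ x : R0, IsIntegral (Algebra.adjoin K {c.t}) x)
    (htr : Transcendental K (algebraMap R0 F c.t)) : IsGen K (algebraMap R0 F c.t) := by
  classical
  refine ⟨htr, ?_⟩
  haveI := isFractionRing0 c (F := F)
  obtain ⟨S, hS⟩ := (Algebra.FiniteType.out : (⊤ : Subalgebra K R0).FG)
  set tF := algebraMap R0 F c.t with htF
  let T : Set F := (algebraMap R0 F) '' (S : Set R0)
  haveI : Finite T := (S.finite_toSet.image _).to_subtype
  have hT : ∀ x ∈ T, IsIntegral K⟮tF⟯ x := by
    rintro _ ⟨y, _, rfl⟩
    exact isIntegral_adjoin_simple c hint0 y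
  haveI hfin : FiniteDimensional K⟮tF⟯ (IntermediateField.adjoin K⟮tF⟯ T) :=
    IntermediateField.finiteDimensional_adjoin hT
  -- the image of `R0` lies in `E`
  have hR0 : ∀ x : R0, algebraMap R0 F x ∈ IntermediateField.adjoin K⟮tF⟯ T := by
    intro x
    have hx : x ∈ Algebra.adjoin K (S : Set R0) := by rw [hS]; exact Algebra.mem_top
    induction hx using Algebra.adjoin_induction with
    | mem y hy => exact IntermediateField.subset_adjoin _ _ ⟨y, hy, rfl⟩
    | algebraMap r =>
      rw [← IsScalarTower.algebraMap_apply K R0 F, IsScalarTower.algebraMap_apply K K⟮tF⟯ F]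
      exact IntermediateField.algebraMap_mem _ _
    | add y z _ _ hy hz =>
      rw [map_add]
      exact add_mem hy hz
    | mul y z _ _ hy hz =>
      rw [map_mul]
      exact mul_mem hy hz
  have htop : IntermediateField.adjoin K⟮tF⟯ T = ⊤ := by
    rw [eq_top_iff]
    intro f _
    obtain ⟨a, b, _, rfl⟩ := IsFractionRing.div_surjective (A := R0) f
    exact div_mem (hR0 a) (hR0 b)
  rw [htop] at hfin
  exact (IntermediateField.topEquiv (F := K⟮tF⟯) (E := F)).toLinearEquiv.finiteDimensional

variable [IsAlgClosed K] [CharZero K]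

/-- **`F / K` is a curve function field** (Prelude class). -/
theorem isCurveOver [IsDomain R0] [IsDomain R01] [Algebra.FiniteType K R0]
    (hint0 : ∀ x : R0, IsIntegral (Algebra.adjoin K {c.t}) x)
    (htr : Transcendental K (algebraMap R0 F c.t)) : IsCurveOver K F :=
  Fermat.Agent.MW.Bridge53.CurveOfGen.isCurveOver_of_isGen (isGen c hint0 htr)

omit [IsAlgClosed K] [CharZero K] in
/-- **`F / K` is essentially of finite type.** -/
theorem essFiniteType [IsDomain R0] [IsDomain R01] [Algebra.FiniteType K R0]
    (hint0 : ∀ x : R0, IsIntegral (Algebra.adjoin K {c.t}) x)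
    (htr : Transcendental K (algebraMap R0 F c.t)) : Algebra.EssFiniteType K F :=
  Fermat.Agent.MW.Bridge53.CurveOfGen.essFiniteType_of_isGen (isGen c hint0 htr)

end Gen

/-! ### Dedekind charts: `ChartHyp` and the place dictionary -/

section Dedekind

variable [Algebra K F] [IsScalarTower K R0 F] [IsScalarTower K R1 F]
  [IsDedekindDomain R0] [IsDedekindDomain R1] [IsDomain R01]

/-- **The chart hypotheses of `GenusRed53`** for the two Dedekind charts of `c`. -/
theorem chartHyp (hint0 : ∀ x : R0, IsIntegral (Algebra.adjoin K {c.t}) x)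
    (hint1 : ∀ x : R1, IsIntegral (Algebra.adjoin K {c.s}) x) :
    ChartHyp K (algebraMap R0 F c.t) := by
  haveI := isFractionRing0 c (F := F)
  haveI := isFractionRing1 c (F := F)
  exact chartHyp_of_dedekind (B0 := R0) (B1 := R1) (hle0 c hint0) (hle1 c hint1) (ht1 c)

/-- **Place dictionary, chart 0**: the places of `F / K` at which `tF` is regular are the
height-one primes (= maximal ideals) of `R0`. -/
noncomputable def placeEquiv0 (hint0 : ∀ x : R0, IsIntegral (Algebra.adjoin K {c.t}) x) :
    letI := isFractionRing0 c (F := F)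
    {v : Place K F // algebraMap R0 F c.t ∈ v.toValuationSubring} ≃ HeightOneSpectrum R0 :=
  letI := isFractionRing0 c (F := F)
  { toFun := fun v => centreSpec v.1 (hle0 c hint0 v.1 v.2)
    invFun := fun w => ⟨Place.ofHeightOneSpectrum (K := K) (F := F) w,
      algebraMap_mem_ofHeightOneSpectrum w c.t⟩
    left_inv := fun v => Subtype.ext (ofHeightOneSpectrum_centreSpec v.1 _)
    right_inv := fun w => by
      apply ofHeightOneSpectrum_injective (K := K) (F := F)
      exact ofHeightOneSpectrum_centreSpec _ _ }

/-- **Place dictionary, chart 1**. -/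
noncomputable def placeEquiv1 (hint1 : ∀ x : R1, IsIntegral (Algebra.adjoin K {c.s}) x) :
    letI := isFractionRing1 c (F := F)
    {v : Place K F // (algebraMap R0 F c.t)⁻¹ ∈ v.toValuationSubring} ≃ HeightOneSpectrum R1 :=
  letI := isFractionRing1 c (F := F)
  { toFun := fun v => centreSpec v.1 (hle1 c hint1 v.1 v.2)
    invFun := fun w => ⟨Place.ofHeightOneSpectrum (K := K) (F := F) w, by
      rw [← algebraMap_s_eq_inv c]
      exact algebraMap_mem_ofHeightOneSpectrum w c.s⟩
    left_inv := fun v => Subtype.ext (ofHeightOneSpectrum_centreSpec v.1 _)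
    right_inv := fun w => by
      apply ofHeightOneSpectrum_injective (K := K) (F := F)
      exact ofHeightOneSpectrum_centreSpec _ _ }

/-- **Every place of `F / K` is the localisation of `R0` or of `R1` at a height-one prime.** -/
theorem exists_eq_ofHeightOneSpectrum (hint0 : ∀ x : R0, IsIntegral (Algebra.adjoin K {c.t}) x)
    (hint1 : ∀ x : R1, IsIntegral (Algebra.adjoin K {c.s}) x) (v : Place K F) :
    (letI := isFractionRing0 c (F := F)
      ∃ w : HeightOneSpectrum R0, Place.ofHeightOneSpectrum (K := K) (F := F) w = v) ∨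
    (letI := isFractionRing1 c (F := F)
      ∃ w : HeightOneSpectrum R1, Place.ofHeightOneSpectrum (K := K) (F := F) w = v) := by
  rcases covering c hint0 hint1 v with h | h
  · left
    letI := isFractionRing0 c (F := F)
    exact ⟨centreSpec v h, ofHeightOneSpectrum_centreSpec v h⟩
  · right
    letI := isFractionRing1 c (F := F)
    exact ⟨centreSpec v h, ofHeightOneSpectrum_centreSpec v h⟩

end Dedekind

end Fermat.Agent.MAZ.TorsCmp94
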