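/-
Programme MAZ (S15), brick U6 TORS-CMP, part (T1) CURVE-Ω (helper94) — BASE CHANGE FORM.

`c0 : TwoChart W B0 B1 B01` a two-chart ring over a base ring `W`, `Ω` a field which is a `W`-algebra
(application: `W = Wb p K`, `c0` the nodal hub at level `4p`, `Ω = Kbar p = ℚ̄_p`).  The generic
fibre over `Ω` is `c0.baseChange Ω : TwoChart Ω (Ω ⊗[W] B0) (Ω ⊗[W] B1) (Ω ⊗[W] B01)` and

  `FOmega c0 Ω := FractionRing (Ω ⊗[W] B01)`,   `tOmega c0 Ω : FOmega c0 Ω` the image of `1 ⊗ c0.t`.

Under the hypotheses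
* `[IsDomain (Ω ⊗[W] B0)] [IsDomain (Ω ⊗[W] B1)] [IsDomain (Ω ⊗[W] B01)]`
  (resp. `IsDedekindDomain` for the charts: helper1's LOC-DED / `DescSep1`),
* `[Algebra.FiniteType W B0]`,
* `hint0 : ∀ x : B0, IsIntegral (Algebra.adjoin W {c0.t}) x`, `hint1` (the charts are integral over the
  line: `int0`, `int1` of the (nodal) two-chart model),
* `htr : Transcendental Ω (tOmega c0 Ω)` (or `hnf : ¬ IsField (Ω ⊗[W] B0)`),
we get `isGen_baseChange`, `isCurveOver_baseChange`, `essFiniteType_baseChange`, `hle0_baseChange`,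
`hle1_baseChange`, `ht1_baseChange`, `covering_baseChange`, `chartHyp_baseChange` and the place
dictionary `placeEquiv0_baseChange`, `placeEquiv1_baseChange`, `exists_eq_ofHeightOneSpectrum_baseChange`.
-/
import Mathlib
import Fermat.Agent.Jac.BaseChange75.Rings
import Fermat.Agent.MAZ.TorsCmp94.Curve

set_option autoImplicit false
set_option linter.unusedSectionVars false
set_option linter.style.haveILetI false

open AlgebraicCurve IntermediateField IsDedekindDomain TensorProduct

namespace Fermat.Agent.MAZ.TorsCmp94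

open Fermat.Agent.Jac Fermat.Agent.X0.FF Fermat.Agent.X0.FFDedekind
open Fermat.Agent.T1B.GenusRed53.CechAbs Fermat.Agent.T1B.GenusRed53.Dedekind
open scoped Fermat.Agent.Jac.BaseChange75

universe u

/-! ### Integrality over `A[t]` is preserved by ring maps -/

section Util

/-- If `x` is integral over `A[t]`, then `g x` is integral over `A'[g t]` for compatible ring maps
`f : A → A'`, `g : B → B'`. -/
theorem isIntegral_adjoin_singleton_map {A A' B B' : Type*} [CommRing A] [CommRing A'] [CommRing B]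
    [CommRing B'] [Algebra A B] [Algebra A' B'] (f : A →+* A') (g : B →+* B')
    (hfg : ∀ a, g (algebraMap A B a) = algebraMap A' B' (f a)) (t : B) {x : B}
    (hx : IsIntegral (Algebra.adjoin A {t}) x) : IsIntegral (Algebra.adjoin A' {g t}) (g x) := by
  have hmem : ∀ a : B, a ∈ Algebra.adjoin A {t} → g a ∈ Algebra.adjoin A' {g t} := by
    intro a ha
    induction ha using Algebra.adjoin_induction with
    | mem y hy =>
      rw [Set.mem_singleton_iff.1 hy]
      exact Algebra.subset_adjoin rfl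
    | algebraMap r =>
      rw [hfg]
      exact Subalgebra.algebraMap_mem _ _
    | add y z _ _ hy hz =>
      rw [map_add]
      exact add_mem hy hz
    | mul y z _ _ hy hz =>
      rw [map_mul]
      exact mul_mem hy hz
  let φ : Algebra.adjoin A {t} →+* Algebra.adjoin A' {g t} :=
    (g.comp (algebraMap (Algebra.adjoin A {t}) B)).codRestrict (Algebra.adjoin A' {g t})
      (fun a => hmem a.1 a.2)
  exact IsIntegral.map_of_comp_eq φ g (RingHom.ext fun a => rfl) hx

end Util

variable {W B0 B1 B01 : Type u} [CommRing W] [CommRing B0] [CommRing B1] [CommRing B01]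
  [Algebra W B0] [Algebra W B1] [Algebra W B01] [Algebra B0 B01] [Algebra B1 B01]
  [IsScalarTower W B0 B01] [IsScalarTower W B1 B01] (c0 : TwoChart W B0 B1 B01)
  (Ω : Type u) [Field Ω] [Algebra W Ω]

/-! ### Integrality of the base-changed charts over the line -/

section Integral

/-- Base change of "integral over `W[t]`": `Ω ⊗[W] B` is integral over `Ω[1 ⊗ t]`. -/
theorem isIntegral_tensor {B : Type u} [CommRing B] [Algebra W B] (t : B)
    (hint : ∀ x : B, IsIntegral (Algebra.adjoin W {t}) x) (y : Ω ⊗[W] B) :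
    IsIntegral (Algebra.adjoin Ω {(1 : Ω) ⊗ₜ[W] t}) y := by
  induction y using TensorProduct.induction_on with
  | zero => exact isIntegral_zero
  | add y z hy hz => exact hy.add hz
  | tmul a b =>
    have h1 : a ⊗ₜ[W] b = (a ⊗ₜ[W] (1 : B)) * ((1 : Ω) ⊗ₜ[W] b) := by
      rw [Algebra.TensorProduct.tmul_mul_tmul, mul_one, one_mul]
    rw [h1]
    refine IsIntegral.mul ?_ ?_
    · have ha : a ⊗ₜ[W] (1 : B) ∈ Algebra.adjoin Ω {(1 : Ω) ⊗ₜ[W] t} := by
        have h2 : a ⊗ₜ[W] (1 : B) = algebraMap Ω (Ω ⊗[W] B) a := by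
          rw [Algebra.TensorProduct.algebraMap_apply]
          rfl
        rw [h2]
        exact Subalgebra.algebraMap_mem _ a
      exact isIntegral_algebraMap (R := Algebra.adjoin Ω {(1 : Ω) ⊗ₜ[W] t})
        (x := ⟨_, ha⟩)
    · exact isIntegral_adjoin_singleton_map (algebraMap W Ω)
        (Algebra.TensorProduct.includeRight (R := W) (A := Ω) (B := B)).toRingHom
        (fun w => (AlgHom.commutes
          (Algebra.TensorProduct.includeRight (R := W) (A := Ω) (B := B)) w).trans
            (IsScalarTower.algebraMap_apply W Ω (Ω ⊗[W] B) w))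
        t (hint b)

end Integral

/-! ### The function field of the generic fibre over `Ω` -/

/-- The function field of `X_Ω`: `Frac (Ω ⊗[W] B01)`. -/
abbrev FOmega : Type u := FractionRing (Ω ⊗[W] B01)

/-- The coordinate `t` in the function field of `X_Ω`. -/
noncomputable def tOmega : FOmega (W := W) (B01 := B01) Ω :=
  algebraMap (Ω ⊗[W] B0) (FOmega (W := W) (B01 := B01) Ω) ((1 : Ω) ⊗ₜ[W] c0.t)

theorem tOmega_def :
    tOmega c0 Ω = algebraMap (Ω ⊗[W] B0) (FOmega (W := W) (B01 := B01) Ω) (c0.baseChange Ω).t :=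
  rfl

section Main

variable [IsDomain (Ω ⊗[W] B0)] [IsDomain (Ω ⊗[W] B1)] [IsDomain (Ω ⊗[W] B01)]

include c0 in
/-- `Frac (Ω ⊗ B0) = FOmega`. -/
theorem isFractionRing0_baseChange :
    IsFractionRing (Ω ⊗[W] B0) (FOmega (W := W) (B01 := B01) Ω) :=
  isFractionRing0 (c0.baseChange Ω)

include c0 in
/-- `Frac (Ω ⊗ B1) = FOmega`. -/
theorem isFractionRing1_baseChange :
    IsFractionRing (Ω ⊗[W] B1) (FOmega (W := W) (B01 := B01) Ω) :=
  isFractionRing1 (c0.baseChange Ω)

/-- `tOmega⁻¹` is the image of `1 ⊗ s`. -/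
theorem ht1_baseChange :
    ∃ s : Ω ⊗[W] B1, algebraMap (Ω ⊗[W] B1) (FOmega (W := W) (B01 := B01) Ω) s = (tOmega c0 Ω)⁻¹ :=
  ht1 (c0.baseChange Ω)

theorem algebraMap_s_baseChange :
    algebraMap (Ω ⊗[W] B1) (FOmega (W := W) (B01 := B01) Ω) ((1 : Ω) ⊗ₜ[W] c0.s) =
      (tOmega c0 Ω)⁻¹ :=
  algebraMap_s_eq_inv (c0.baseChange Ω)

variable (hint0 : ∀ x : B0, IsIntegral (Algebra.adjoin W {c0.t}) x)
  (hint1 : ∀ x : B1, IsIntegral (Algebra.adjoin W {c0.s}) x)

include hint0 in
/-- **(hle0)** over `Ω`. -/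
theorem hle0_baseChange (v : Place Ω (FOmega (W := W) (B01 := B01) Ω))
    (hv : tOmega c0 Ω ∈ v.toValuationSubring) (b : Ω ⊗[W] B0) :
    algebraMap (Ω ⊗[W] B0) (FOmega (W := W) (B01 := B01) Ω) b ∈ v.toValuationSubring :=
  hle0 (c0.baseChange Ω) (isIntegral_tensor Ω c0.t hint0) v hv b

include hint1 in
/-- **(hle1)** over `Ω`. -/
theorem hle1_baseChange (v : Place Ω (FOmega (W := W) (B01 := B01) Ω))
    (hv : (tOmega c0 Ω)⁻¹ ∈ v.toValuationSubring) (b : Ω ⊗[W] B1) :
    algebraMap (Ω ⊗[W] B1) (FOmega (W := W) (B01 := B01) Ω) b ∈ v.toValuationSubring :=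
  hle1 (c0.baseChange Ω) (isIntegral_tensor Ω c0.s hint1) v hv b

include hint0 hint1 in
/-- **Covering** over `Ω`: every place of `FOmega / Ω` contains `Ω ⊗ B0` or `Ω ⊗ B1`. -/
theorem covering_baseChange (v : Place Ω (FOmega (W := W) (B01 := B01) Ω)) :
    (∀ b : Ω ⊗[W] B0,
        algebraMap (Ω ⊗[W] B0) (FOmega (W := W) (B01 := B01) Ω) b ∈ v.toValuationSubring) ∨
      (∀ b : Ω ⊗[W] B1,
        algebraMap (Ω ⊗[W] B1) (FOmega (W := W) (B01 := B01) Ω) b ∈ v.toValuationSubring) :=
  covering (c0.baseChange Ω) (isIntegral_tensor Ω c0.t hint0) (isIntegral_tensor Ω c0.s hint1) v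

include hint0 in
/-- `tOmega` is transcendental over `Ω` as soon as `Ω ⊗ B0` is not a field. -/
theorem transcendental_tOmega (hnf : ¬ IsField (Ω ⊗[W] B0)) : Transcendental Ω (tOmega c0 Ω) :=
  transcendental_of_not_isField (c0.baseChange Ω) (isIntegral_tensor Ω c0.t hint0) hnf

variable [Algebra.FiniteType W B0]

include hint0 in
/-- **`tOmega` is a transcendental generator of `FOmega / Ω`.** -/
theorem isGen_baseChange (htr : Transcendental Ω (tOmega c0 Ω)) : IsGen Ω (tOmega c0 Ω) :=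
  isGen (c0.baseChange Ω) (isIntegral_tensor Ω c0.t hint0) htr

include hint0 in
/-- **`FOmega / Ω` is essentially of finite type.** -/
theorem essFiniteType_baseChange (htr : Transcendental Ω (tOmega c0 Ω)) :
    Algebra.EssFiniteType Ω (FOmega (W := W) (B01 := B01) Ω) :=
  essFiniteType (c0.baseChange Ω) (isIntegral_tensor Ω c0.t hint0) htr

include hint0 in
/-- **`FOmega / Ω` is a curve function field** (`Ω` algebraically closed of characteristic `0`). -/
theorem isCurveOver_baseChange [IsAlgClosed Ω] [CharZero Ω]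
    (htr : Transcendental Ω (tOmega c0 Ω)) : IsCurveOver Ω (FOmega (W := W) (B01 := B01) Ω) :=
  isCurveOver (c0.baseChange Ω) (isIntegral_tensor Ω c0.t hint0) htr

end Main

/-! ### Dedekind charts -/

section Dedekind

variable [IsDedekindDomain (Ω ⊗[W] B0)] [IsDedekindDomain (Ω ⊗[W] B1)] [IsDomain (Ω ⊗[W] B01)]
  (hint0 : ∀ x : B0, IsIntegral (Algebra.adjoin W {c0.t}) x)
  (hint1 : ∀ x : B1, IsIntegral (Algebra.adjoin W {c0.s}) x)

include hint0 hint1 in
/-- **`ChartHyp Ω tOmega`**: the input of the Čech computation of the genus (`GenusRed53`). -/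
theorem chartHyp_baseChange : ChartHyp Ω (tOmega c0 Ω) :=
  chartHyp (c0.baseChange Ω) (isIntegral_tensor Ω c0.t hint0) (isIntegral_tensor Ω c0.s hint1)

/-- **Place dictionary over `Ω`, chart 0.** -/
noncomputable def placeEquiv0_baseChange :
    letI := isFractionRing0_baseChange c0 Ω
    {v : Place Ω (FOmega (W := W) (B01 := B01) Ω) // tOmega c0 Ω ∈ v.toValuationSubring} ≃
      HeightOneSpectrum (Ω ⊗[W] B0) :=
  placeEquiv0 (c0.baseChange Ω) (isIntegral_tensor Ω c0.t hint0)

/-- **Place dictionary over `Ω`, chart 1.** -/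
noncomputable def placeEquiv1_baseChange :
    letI := isFractionRing1_baseChange c0 Ω
    {v : Place Ω (FOmega (W := W) (B01 := B01) Ω) // (tOmega c0 Ω)⁻¹ ∈ v.toValuationSubring} ≃
      HeightOneSpectrum (Ω ⊗[W] B1) :=
  placeEquiv1 (c0.baseChange Ω) (isIntegral_tensor Ω c0.s hint1)

include hint0 hint1 in
/-- **Every place of `FOmega / Ω` is the localisation of `Ω ⊗ B0` or `Ω ⊗ B1` at a maximal ideal.** -/
theorem exists_eq_ofHeightOneSpectrum_baseChange
    (v : Place Ω (FOmega (W := W) (B01 := B01) Ω)) :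
    (letI := isFractionRing0_baseChange c0 Ω
      ∃ w : HeightOneSpectrum (Ω ⊗[W] B0),
        Place.ofHeightOneSpectrum (K := Ω) (F := FOmega (W := W) (B01 := B01) Ω) w = v) ∨
    (letI := isFractionRing1_baseChange c0 Ω
      ∃ w : HeightOneSpectrum (Ω ⊗[W] B1),
        Place.ofHeightOneSpectrum (K := Ω) (F := FOmega (W := W) (B01 := B01) Ω) w = v) :=
  exists_eq_ofHeightOneSpectrum (c0.baseChange Ω) (isIntegral_tensor Ω c0.t hint0)
    (isIntegral_tensor Ω c0.s hint1) v

end Dedekind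

end Fermat.Agent.MAZ.TorsCmp94
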