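/-
Programme MAZ (S15), brick U6 TORS-CMP, part (T1) CURVE-Ω (helper94) — THE NODAL HUB.

Context of helper1's `T1B/DescSep1/NodalModelGen`: `W` a domain with fraction field `K` of
characteristic `0`, `M : NodalTwoChartModel W F π t B0 B1 O1 O2` a nodal two-chart model inside a
field `F / K` with an injective expansion `e : F →+* K((q))`, `t` a transcendental generator of
`F / K`, charts of finite type over `W`.  For a field `Ω ⊇ K` (`Ω = Kbar p`, also `Ω = ℚ̄`), with
`c0 := nodalChart M`, `FΩ := FOmega Ω = FractionRing (Ω ⊗[W] ↥(B0 ⊔ B1))`,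
`tΩ := tNodal Ω M (= tOmega (nodalChart M) Ω)`:

* `hint0_nodal`, `hint1_nodal`            : the charts are integral over `W[t]`, `W[t⁻¹]` (subtypes);
* `isDomain0/1/01_nodal`                   : domain instances of the base-changed charts (as theorems;
  `Field FΩ` is Mathlib's `FractionRing.field` once `haveI := isDomain01_nodal …` is in scope);
* `transcendental_nodal`, `isGen_nodal`    : `tΩ` is a transcendental generator of `FΩ / Ω`;
* **`isCurveOver_nodal`**, **`essFiniteType_nodal`**;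
* `isFractionRing0_nodal`, `isFractionRing1_nodal`;
* **`covering_nodal`** (= `hcov : ∀ v, Contains v R0 ∨ Contains v R1` of `AV/PicBridge84`);
* `hle0_nodal`, `hle1_nodal`, `ht1_nodal`, `chartHyp_nodal`;
* `exists_eq_ofHeightOneSpectrum_nodal` (every place is a localisation of a chart at a maximal ideal).

ELABORATION NOTE: writing `(nodalChart M)` as an argument whose expected type still contains
metavariables for the chart rings makes the unifier unfold `Subalgebra.toCommRing` against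
metavariables (40 s); always give the rings: `(W := W) (B0 := ↥B0) (B1 := ↥B1) (B01 := ↥(B0 ⊔ B1))`.
-/
import Mathlib
import Fermat.Agent.T1B.DescSep1.NodalModelGen
import Fermat.Agent.T1.ModelFacts62.Chart
import Fermat.Agent.MAZ.TorsCmp94.BaseChange

set_option autoImplicit false
set_option linter.unusedSectionVars false
set_option linter.style.haveILetI false
set_option synthInstance.maxHeartbeats 400000
set_option maxHeartbeats 1000000

open AlgebraicCurve IntermediateField IsDedekindDomain TensorProduct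

namespace Fermat.Agent.MAZ.TorsCmp94

open HahnSeries ModularCurve
open Fermat.Agent.Jac Fermat.Agent.X0.FF Fermat.Agent.X0.FFDedekind
open Fermat.Agent.T1B.GenusRed53.CechAbs Fermat.Agent.T1B.GenusRed53.Dedekind
open Fermat.Agent.T1B.NodalFacts23 Fermat.Agent.ES.N34.NodalCore13
open Fermat.Agent.T1.Coh60 (algebra0 algebra1 isScalarTower0 isScalarTower1)
open Fermat.Agent.T1B.DescSep1.Gen
open scoped Fermat.Agent.Jac.BaseChange75

universe u

attribute [local instance] algebra0 algebra1 isScalarTower0 isScalarTower1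

variable {W F : Type u} {K : Type*} [CommRing W] [IsDomain W] [Field K] [CharZero K]
  [Algebra W K] [IsFractionRing W K] [Field F] [Algebra K F] [Algebra W F] [IsScalarTower W K F]
  (e : F →+* LaurentSeries K) (he : ∀ c : K, e (algebraMap K F c) = HahnSeries.C c)
  (hinj : Function.Injective e)
  {π : W} {t : F} {B0 B1 : Subalgebra W F} {O1 O2 : ValuationSubring F}
  (Ω : Type u) [Field Ω] [Algebra K Ω] [Algebra W Ω] [IsScalarTower W K Ω]
  (M : NodalTwoChartModel W F π t B0 B1 O1 O2)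

/-- The two-chart ring of the nodal model, with its type spelled out. -/
noncomputable abbrev cNodal : TwoChart W ↥B0 ↥B1 ↥(B0 ⊔ B1) := nodalChart M

theorem cNodal_eq : cNodal M = nodalChart M := rfl

/-! ### Integrality over the line, on the subtypes -/

/-- Chart 0 is integral over `W[t] ⊆ B0`. -/
theorem hint0_nodal (x : ↥B0) : IsIntegral (Algebra.adjoin W {(cNodal M).t}) x :=
  Fermat.Agent.T1.ModelFacts62.isIntegral_adjoin_subtype B0 M.t_mem x (M.int0 _ x.2)

/-- Chart 1 is integral over `W[t⁻¹] ⊆ B1`. -/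
theorem hint1_nodal (x : ↥B1) : IsIntegral (Algebra.adjoin W {(cNodal M).s}) x :=
  Fermat.Agent.T1.ModelFacts62.isIntegral_adjoin_subtype B1 M.tinv_mem x (M.int1 _ x.2)

/-! ### The coordinate -/

/-- The coordinate `tΩ` of the nodal hub over `Ω` (`= tOmega (nodalChart M) Ω`). -/
noncomputable abbrev tNodal : FOmega (W := W) (B01 := ↥(B0 ⊔ B1)) Ω :=
  tOmega (W := W) (B0 := ↥B0) (B1 := ↥B1) (B01 := ↥(B0 ⊔ B1)) (cNodal M) Ω

theorem tNodal_eq : tNodal Ω M =
    algebraMap (Ω ⊗[W] ↥B0) (FOmega (W := W) (B01 := ↥(B0 ⊔ B1)) Ω)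
      ((1 : Ω) ⊗ₜ[W] (⟨t, M.t_mem⟩ : ↥B0)) := rfl

/-! ### Domains -/

section Domains

variable [Algebra.FiniteType W ↥B0] [Algebra.FiniteType W ↥B1] (ht : IsGen K t)

include e he hinj in
theorem isDomain01_nodal : IsDomain (Ω ⊗[W] ↥(B0 ⊔ B1)) :=
  isDomain_nodalOverlap e he hinj Ω

include e he hinj M ht in
theorem isDomain0_nodal : IsDomain (Ω ⊗[W] ↥B0) :=
  (isDedekindDomain_nodalChart0 e he hinj Ω M ht).toIsDomain

include e he hinj M ht in
theorem isDomain1_nodal : IsDomain (Ω ⊗[W] ↥B1) :=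
  (isDedekindDomain_nodalChart1 e he hinj Ω M ht).toIsDomain

/-! ### The curve -/

include e he hinj ht in
/-- `tΩ` is transcendental over `Ω`. -/
theorem transcendental_nodal : Transcendental Ω (tNodal Ω M) := by
  haveI := isDomain0_nodal e he hinj Ω M ht
  haveI := isDomain1_nodal e he hinj Ω M ht
  haveI := isDomain01_nodal e he hinj Ω (B0 := B0) (B1 := B1)
  exact transcendental_tOmega (W := W) (B0 := ↥B0) (B1 := ↥B1) (B01 := ↥(B0 ⊔ B1)) (cNodal M) Ω
    (hint0_nodal M) (not_isField_chart0 B0 Ω ht M.t_mem M.intcl0 M.int0)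

include e he hinj ht in
/-- **`tΩ` is a transcendental generator of `FΩ / Ω`.** -/
theorem isGen_nodal :
    haveI := isDomain01_nodal e he hinj Ω (B0 := B0) (B1 := B1)
    IsGen Ω (tNodal Ω M) := by
  haveI := isDomain0_nodal e he hinj Ω M ht
  haveI := isDomain1_nodal e he hinj Ω M ht
  haveI := isDomain01_nodal e he hinj Ω (B0 := B0) (B1 := B1)
  exact isGen_baseChange (W := W) (B0 := ↥B0) (B1 := ↥B1) (B01 := ↥(B0 ⊔ B1)) (cNodal M) Ω
    (hint0_nodal M) (transcendental_nodal e he hinj Ω M ht)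

include e he hinj M ht in
/-- **`FΩ / Ω` is essentially of finite type.** -/
theorem essFiniteType_nodal :
    Algebra.EssFiniteType Ω (FOmega (W := W) (B01 := ↥(B0 ⊔ B1)) Ω) := by
  haveI := isDomain01_nodal e he hinj Ω (B0 := B0) (B1 := B1)
  exact Fermat.Agent.MW.Bridge53.CurveOfGen.essFiniteType_of_isGen (isGen_nodal e he hinj Ω M ht)

include e he hinj M ht in
/-- **`FΩ / Ω` is a curve function field** (Prelude class). -/
theorem isCurveOver_nodal [IsAlgClosed Ω] [CharZero Ω] :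
    haveI := isDomain01_nodal e he hinj Ω (B0 := B0) (B1 := B1)
    IsCurveOver Ω (FOmega (W := W) (B01 := ↥(B0 ⊔ B1)) Ω) := by
  haveI := isDomain01_nodal e he hinj Ω (B0 := B0) (B1 := B1)
  exact Fermat.Agent.MW.Bridge53.CurveOfGen.isCurveOver_of_isGen (isGen_nodal e he hinj Ω M ht)

include e he hinj M ht in
/-- `FΩ = Frac (Ω ⊗ B0)`. -/
theorem isFractionRing0_nodal :
    IsFractionRing (Ω ⊗[W] ↥B0) (FOmega (W := W) (B01 := ↥(B0 ⊔ B1)) Ω) := by
  haveI := isDomain0_nodal e he hinj Ω M ht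
  haveI := isDomain1_nodal e he hinj Ω M ht
  haveI := isDomain01_nodal e he hinj Ω (B0 := B0) (B1 := B1)
  exact isFractionRing0_baseChange (W := W) (B0 := ↥B0) (B1 := ↥B1) (B01 := ↥(B0 ⊔ B1))
    (cNodal M) Ω

include e he hinj M ht in
/-- `FΩ = Frac (Ω ⊗ B1)`. -/
theorem isFractionRing1_nodal :
    IsFractionRing (Ω ⊗[W] ↥B1) (FOmega (W := W) (B01 := ↥(B0 ⊔ B1)) Ω) := by
  haveI := isDomain0_nodal e he hinj Ω M ht
  haveI := isDomain1_nodal e he hinj Ω M ht
  haveI := isDomain01_nodal e he hinj Ω (B0 := B0) (B1 := B1)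
  exact isFractionRing1_baseChange (W := W) (B0 := ↥B0) (B1 := ↥B1) (B01 := ↥(B0 ⊔ B1))
    (cNodal M) Ω

include e he hinj ht in
/-- **(hle0)**. -/
theorem hle0_nodal :
    haveI := isDomain01_nodal e he hinj Ω (B0 := B0) (B1 := B1)
    ∀ (v : Place Ω (FOmega (W := W) (B01 := ↥(B0 ⊔ B1)) Ω)),
      tNodal Ω M ∈ v.toValuationSubring → ∀ b : Ω ⊗[W] ↥B0,
        algebraMap (Ω ⊗[W] ↥B0) (FOmega (W := W) (B01 := ↥(B0 ⊔ B1)) Ω) b ∈
          v.toValuationSubring := by
  haveI := isDomain0_nodal e he hinj Ω M ht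
  haveI := isDomain1_nodal e he hinj Ω M ht
  haveI := isDomain01_nodal e he hinj Ω (B0 := B0) (B1 := B1)
  exact hle0_baseChange (W := W) (B0 := ↥B0) (B1 := ↥B1) (B01 := ↥(B0 ⊔ B1)) (cNodal M) Ω
    (hint0_nodal M)

include e he hinj ht in
/-- **(hle1)**. -/
theorem hle1_nodal :
    haveI := isDomain01_nodal e he hinj Ω (B0 := B0) (B1 := B1)
    ∀ (v : Place Ω (FOmega (W := W) (B01 := ↥(B0 ⊔ B1)) Ω)),
      (tNodal Ω M)⁻¹ ∈ v.toValuationSubring → ∀ b : Ω ⊗[W] ↥B1,
        algebraMap (Ω ⊗[W] ↥B1) (FOmega (W := W) (B01 := ↥(B0 ⊔ B1)) Ω) b ∈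
          v.toValuationSubring := by
  haveI := isDomain0_nodal e he hinj Ω M ht
  haveI := isDomain1_nodal e he hinj Ω M ht
  haveI := isDomain01_nodal e he hinj Ω (B0 := B0) (B1 := B1)
  exact hle1_baseChange (W := W) (B0 := ↥B0) (B1 := ↥B1) (B01 := ↥(B0 ⊔ B1)) (cNodal M) Ω
    (hint1_nodal M)

include e he hinj ht in
/-- **(ht1)**. -/
theorem ht1_nodal :
    haveI := isDomain01_nodal e he hinj Ω (B0 := B0) (B1 := B1)
    ∃ s : Ω ⊗[W] ↥B1,
      algebraMap (Ω ⊗[W] ↥B1) (FOmega (W := W) (B01 := ↥(B0 ⊔ B1)) Ω) s = (tNodal Ω M)⁻¹ := by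
  haveI := isDomain0_nodal e he hinj Ω M ht
  haveI := isDomain1_nodal e he hinj Ω M ht
  haveI := isDomain01_nodal e he hinj Ω (B0 := B0) (B1 := B1)
  exact ht1_baseChange (W := W) (B0 := ↥B0) (B1 := ↥B1) (B01 := ↥(B0 ⊔ B1)) (cNodal M) Ω

include e he hinj M ht in
/-- **Covering** (`hcov` of `AV/PicBridge84`: `Contains v R0 ∨ Contains v R1`). -/
theorem covering_nodal :
    haveI := isDomain01_nodal e he hinj Ω (B0 := B0) (B1 := B1)
    ∀ (v : Place Ω (FOmega (W := W) (B01 := ↥(B0 ⊔ B1)) Ω)),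
      (∀ b : Ω ⊗[W] ↥B0,
        algebraMap (Ω ⊗[W] ↥B0) (FOmega (W := W) (B01 := ↥(B0 ⊔ B1)) Ω) b ∈
          v.toValuationSubring) ∨
      (∀ b : Ω ⊗[W] ↥B1,
        algebraMap (Ω ⊗[W] ↥B1) (FOmega (W := W) (B01 := ↥(B0 ⊔ B1)) Ω) b ∈
          v.toValuationSubring) := by
  haveI := isDomain0_nodal e he hinj Ω M ht
  haveI := isDomain1_nodal e he hinj Ω M ht
  haveI := isDomain01_nodal e he hinj Ω (B0 := B0) (B1 := B1)
  exact covering_baseChange (W := W) (B0 := ↥B0) (B1 := ↥B1) (B01 := ↥(B0 ⊔ B1)) (cNodal M) Ω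
    (hint0_nodal M) (hint1_nodal M)

include e he hinj ht in
/-- **`ChartHyp Ω tΩ`** (input of the Čech computation of the genus). -/
theorem chartHyp_nodal :
    haveI := isDomain01_nodal e he hinj Ω (B0 := B0) (B1 := B1)
    ChartHyp Ω (tNodal Ω M) := by
  haveI := isDedekindDomain_nodalChart0 e he hinj Ω M ht
  haveI := isDedekindDomain_nodalChart1 e he hinj Ω M ht
  haveI := isDomain01_nodal e he hinj Ω (B0 := B0) (B1 := B1)
  exact chartHyp_baseChange (W := W) (B0 := ↥B0) (B1 := ↥B1) (B01 := ↥(B0 ⊔ B1)) (cNodal M) Ω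
    (hint0_nodal M) (hint1_nodal M)

include e he hinj ht in
/-- **Every place of `FΩ / Ω` is the localisation of a base-changed chart at a maximal ideal.** -/
theorem exists_eq_ofHeightOneSpectrum_nodal :
    haveI := isDomain01_nodal e he hinj Ω (B0 := B0) (B1 := B1)
    haveI := isDedekindDomain_nodalChart0 e he hinj Ω M ht
    haveI := isDedekindDomain_nodalChart1 e he hinj Ω M ht
    haveI := isFractionRing0_nodal e he hinj Ω M ht
    haveI := isFractionRing1_nodal e he hinj Ω M ht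
    ∀ (v : Place Ω (FOmega (W := W) (B01 := ↥(B0 ⊔ B1)) Ω)),
      (∃ w : HeightOneSpectrum (Ω ⊗[W] ↥B0),
        Place.ofHeightOneSpectrum (K := Ω) (F := FOmega (W := W) (B01 := ↥(B0 ⊔ B1)) Ω) w = v) ∨
      (∃ w : HeightOneSpectrum (Ω ⊗[W] ↥B1),
        Place.ofHeightOneSpectrum (K := Ω) (F := FOmega (W := W) (B01 := ↥(B0 ⊔ B1)) Ω) w = v) := by
  haveI := isDedekindDomain_nodalChart0 e he hinj Ω M ht
  haveI := isDedekindDomain_nodalChart1 e he hinj Ω M ht
  haveI := isDomain01_nodal e he hinj Ω (B0 := B0) (B1 := B1)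
  exact exists_eq_ofHeightOneSpectrum_baseChange (W := W) (B0 := ↥B0) (B1 := ↥B1)
    (B01 := ↥(B0 ⊔ B1)) (cNodal M) Ω (hint0_nodal M) (hint1_nodal M)

end Domains

end Fermat.Agent.MAZ.TorsCmp94
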