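/-
MAZ brick U6 TORS-CMP, part (T1) CURVE-Ω (helper94), the missing input `ht`:
**the coordinate `t` of a NODAL two-chart model is a transcendental generator.**

* `isGen_of_nodalNumData` (generic): for `D : NodalNumData R K F π t B0 B1 O1 O2` and `t` not a
  constant, `X0.FF.IsGen K t` (`t` transcendental over `K`, `F` finite over `K(t)`).
  Twin of helper51's `T1.ModelBC51.CoordGen.isGen_of_model` (smooth `TwoChartModel`); the proof
  uses only `model.int0`, `model.fin0`, `frac0`, `algClosed`:
  `F = Frac B0`, every element of `B0` is integral over `R[t] ⊆ K(t)`, so `K(t) · B0` is a field,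
  equal to `F`; and `B0 ⊆ Σ R[t] e_i` (`fin0`), so `F = Σ K(t) e_i`.
-/
import Mathlib
import Fermat.Agent.X0.FFDefs
import Fermat.Agent.ES.N34.NumData13

set_option autoImplicit false
set_option linter.unusedSectionVars false
set_option linter.style.haveILetI false

noncomputable section

namespace Fermat.Agent.MAZ.TorsCmp94

open Polynomial IntermediateField
open Fermat.Agent.ES.N34.NodalCore13 Fermat.Agent.ES.N34.NumData13

section GenNodal

/-- integrality only depends on the image of the base ring (copy of helper51's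
`TraceCoord.isIntegral_of_range_le`, to keep the import closure small). -/
theorem isIntegral_of_range_subset {S T B : Type*} [CommRing S] [CommRing T] [CommRing B]
    [Algebra S B] [Algebra T B]
    (h : Set.range (algebraMap S B) ⊆ Set.range (algebraMap T B)) {x : B}
    (hx : IsIntegral S x) : IsIntegral T x := by
  obtain ⟨p, hp, hpx⟩ := hx
  have hl : p.map (algebraMap S B) ∈ lifts (algebraMap T B) := by
    rw [lifts_iff_coeff_lifts]
    intro n
    rw [coeff_map]
    exact h ⟨p.coeff n, rfl⟩
  obtain ⟨q, hq, -, hqm⟩ := lifts_and_natDegree_eq_and_monic hl (hp.map _)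
  refine ⟨q, hqm, ?_⟩
  rw [← eval_map, hq, eval_map]
  exact hpx

variable {R K F : Type*} [CommRing R] [Field K] [Field F] [Algebra R K] [Algebra K F]
  [Algebra R F] [IsScalarTower R K F]

/-- polynomial expressions in `t` with coefficients in `R` lie in `K(t)`. -/
theorem aeval_mem_adjoin_simple (t : F) (P : R[X]) : aeval t P ∈ K⟮t⟯ := by
  rw [aeval_eq_sum_range]
  refine sum_mem fun i _ => ?_
  rw [Algebra.smul_def, IsScalarTower.algebraMap_apply R K F]
  exact mul_mem (K⟮t⟯.algebraMap_mem _) (pow_mem (mem_adjoin_simple_self K t) i)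

/-- `R[t] ⊆ K(t)`. -/
theorem algebra_adjoin_le_adjoin_simple (t : F) {y : F} (hy : y ∈ Algebra.adjoin R {t}) :
    y ∈ K⟮t⟯ := by
  induction hy using Algebra.adjoin_induction with
  | mem x hx =>
    rw [Set.mem_singleton_iff] at hx
    subst hx
    exact mem_adjoin_simple_self K _
  | algebraMap r =>
    rw [IsScalarTower.algebraMap_apply R K F]
    exact K⟮t⟯.algebraMap_mem _
  | add x y _ _ hx hy => exact add_mem hx hy
  | mul x y _ _ hx hy => exact mul_mem hx hy

variable {π : R} {t : F} {B0 B1 : Subalgebra R F} {O1 O2 : ValuationSubring F}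

/-- elements of `B0` are integral over `K(t)` (nodal model). -/
theorem isIntegral_adjoin_simple_of_mem_nodal (M : NodalTwoChartModel R F π t B0 B1 O1 O2)
    {b : F} (hb : b ∈ B0) : IsIntegral ↥K⟮t⟯ b := by
  refine isIntegral_of_range_subset ?_ (M.int0 b hb)
  rintro _ ⟨y, rfl⟩
  exact ⟨⟨(y : F), algebra_adjoin_le_adjoin_simple t y.2⟩, rfl⟩

/-- **`F` is finite over `K(t)`** (nodal model; needs only `int0`, `fin0`, `frac0`). -/
theorem finiteDimensional_of_nodalModel (M : NodalTwoChartModel R F π t B0 B1 O1 O2)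
    (frac0 : ∀ x : F, ∃ a ∈ B0, ∃ b ∈ B0, b ≠ 0 ∧ x * b = a) :
    FiniteDimensional ↥K⟮t⟯ F := by
  classical
  obtain ⟨r, e, heB, hfin⟩ := M.fin0
  -- the `K(t)`-subalgebra generated by `B0`
  set S : Subalgebra ↥K⟮t⟯ F := Algebra.adjoin ↥K⟮t⟯ (B0 : Set F) with hS
  have hBS : ∀ b ∈ B0, b ∈ S := fun b hb => Algebra.subset_adjoin hb
  -- it is all of `F`
  have htop : ∀ x : F, x ∈ S := by
    intro x
    obtain ⟨a, ha, b, hb, hb0, hxb⟩ := frac0 x
    have hbinv : b⁻¹ ∈ S :=
      S.inv_mem_of_algebraic (x := ⟨b, hBS b hb⟩)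
        (isIntegral_adjoin_simple_of_mem_nodal (K := K) M hb).isAlgebraic
    have hx : x = a * b⁻¹ := by
      rw [← hxb, mul_assoc, mul_inv_cancel₀ hb0, mul_one]
    rw [hx]
    exact S.mul_mem (hBS a ha) hbinv
  -- it is spanned by the `e i`
  have hspan : Subalgebra.toSubmodule S ≤ Submodule.span ↥K⟮t⟯ (Set.range e) := by
    rw [hS, Algebra.adjoin_eq_span]
    refine Submodule.span_le.mpr ?_
    intro x hx
    have hxB : x ∈ B0 := by
      have h1 : Submonoid.closure (B0 : Set F) = B0.toSubmonoid :=
        Submonoid.closure_eq B0.toSubmonoid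
      rw [h1] at hx
      exact hx
    obtain ⟨P, hP⟩ := hfin x hxB
    rw [SetLike.mem_coe, hP]
    refine Submodule.sum_mem _ fun i _ => ?_
    have : aeval t (P i) * e i =
        (⟨aeval t (P i), aeval_mem_adjoin_simple (K := K) t (P i)⟩ : ↥K⟮t⟯) • e i := by
      rw [Algebra.smul_def]
      rfl
    rw [this]
    exact Submodule.smul_mem _ _ (Submodule.subset_span ⟨i, rfl⟩)
  refine Module.finite_def.mpr ⟨Finset.univ.image e, ?_⟩
  rw [Finset.coe_image, Finset.coe_univ, Set.image_univ]
  exact top_le_iff.mp fun x _ => hspan (htop x)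

/-- **The coordinate of a nodal two-chart model is a transcendental generator.** -/
theorem isGen_of_nodalNumData (D : NodalNumData R K F π t B0 B1 O1 O2)
    (hnc : ∀ c : K, algebraMap K F c ≠ t) :
    Fermat.Agent.X0.FF.IsGen K t where
  transcendental := by
    intro halg
    obtain ⟨c, hc⟩ := D.algClosed t halg
    exact hnc c hc
  finite := finiteDimensional_of_nodalModel (K := K) D.model D.frac0

end GenNodal

end Fermat.Agent.MAZ.TorsCmp94
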